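/-
helper74: multiplication by `n` on a Weierstrass curve via the polynomials `Φ_n`, `ΨSq_n`.

* `eval_ΨSq`, `eval_Φ` : values of `ΨSq_n`, `Φ_n` at `x(P)` in terms of `ψ_m(P)`;
* `fibrePoly W n c = Φ_n - c ΨSq_n`, monic of degree `n²`;
* `fibrePoly_root` / `fibrePoly_eval_eq_zero` : its roots are the `x(P)` with `x(n • P) = c`;
* `exists_nsmul_eq` : `[n]` is surjective over an algebraically closed field (`Δ ≠ 0`,
  characteristic `≠ 2`).
-/
import Fermat.Agent.H74.DivGen.MulFormula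

set_option autoImplicit false

noncomputable section

open WeierstrassCurve Polynomial

namespace Fermat.Agent.H74.DivGen

open Fermat.Agent.H74

variable {K : Type*} [Field K] {W : Affine K}

/-- `ΨSq_n(x(P)) = ψ_n(P)²`. -/
theorem eval_ΨSq {x y : K} (h : W.Nonsingular x y) (n : ℤ) :
    (W.ΨSq n).eval x = dseq (Affine.Point.some x y h) n ^ 2 := by
  rw [dseq_eq_eval_preΨ h, WeierstrassCurve.ΨSq, eval_mul, eval_pow, mul_pow]
  split_ifs with he
  · rw [ptPsi2_sq h]
  · simp

/-- `Φ_n(x(P)) = x ψ_n(P)² - ψ_{n+1}(P) ψ_{n-1}(P)`. -/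
theorem eval_Φ {x y : K} (h : W.Nonsingular x y) (n : ℤ) :
    (W.Φ n).eval x = x * dseq (Affine.Point.some x y h) n ^ 2 -
      dseq (Affine.Point.some x y h) (n + 1) * dseq (Affine.Point.some x y h) (n - 1) := by
  rw [WeierstrassCurve.Φ, eval_sub, eval_mul, eval_X, eval_ΨSq h, eval_mul, eval_mul,
    dseq_eq_eval_preΨ h (n + 1), dseq_eq_eval_preΨ h (n - 1)]
  by_cases he : Even n
  · have h1 : ¬ Even (n + 1) := by
      rw [Int.even_add_one]; exact not_not.mpr he
    have h2 : ¬ Even (n - 1) := by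
      rw [Int.even_sub_one]; exact not_not.mpr he
    rw [if_pos he, if_neg h1, if_neg h2]
    simp
  · have h1 : Even (n + 1) := by
      rw [Int.even_add_one]; exact he
    have h2 : Even (n - 1) := by
      rw [Int.even_sub_one]; exact he
    rw [if_neg he, if_pos h1, if_pos h2]
    have := ptPsi2_sq h
    rw [← this]
    ring

/-- The polynomial `Φ_n - c ΨSq_n` whose roots are the `x`-coordinates of the points `P` with
`x(n • P) = c`. -/
def fibrePoly (W : Affine K) (n : ℕ) (c : K) : K[X] := W.Φ (n : ℤ) - C c * W.ΨSq (n : ℤ)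

theorem natDegree_C_mul_ΨSq_lt {n : ℕ} (hn : 1 ≤ n) (c : K) :
    (C c * W.ΨSq (n : ℤ)).natDegree < (W.Φ (n : ℤ)).natDegree := by
  rw [WeierstrassCurve.natDegree_Φ]
  have h1 := natDegree_C_mul_le c (W.ΨSq (n : ℤ))
  have h2 := WeierstrassCurve.natDegree_ΨSq_le W (n : ℤ)
  have h3 : 1 ≤ (n : ℤ).natAbs ^ 2 := by
    rw [Int.natAbs_natCast]
    exact Nat.one_le_pow _ _ hn
  omega

theorem natDegree_fibrePoly {n : ℕ} (hn : 1 ≤ n) (c : K) :
    (fibrePoly W n c).natDegree = n ^ 2 := by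
  rw [fibrePoly, natDegree_sub_eq_left_of_natDegree_lt (natDegree_C_mul_ΨSq_lt hn c),
    WeierstrassCurve.natDegree_Φ, Int.natAbs_natCast]

theorem fibrePoly_ne_zero {n : ℕ} (hn : 1 ≤ n) (c : K) : fibrePoly W n c ≠ 0 := by
  intro h
  have := natDegree_fibrePoly (W := W) hn c
  rw [h, natDegree_zero] at this
  have h3 : 1 ≤ n ^ 2 := Nat.one_le_pow _ _ hn
  omega

/-- The value of `fibrePoly` at `x(P)`. -/
theorem eval_fibrePoly {x y : K} (h : W.Nonsingular x y) (n : ℕ) (c : K) :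
    (fibrePoly W n c).eval x = (x - c) * dseq (Affine.Point.some x y h) (n : ℤ) ^ 2 -
      dseq (Affine.Point.some x y h) ((n : ℤ) - 1) *
        dseq (Affine.Point.some x y h) ((n : ℤ) + 1) := by
  rw [fibrePoly, eval_sub, eval_mul, eval_C, eval_Φ h, eval_ΨSq h]
  ring

section curve

variable [DecidableEq K] (h2 : (2 : K) ≠ 0)

include h2

/-- A root of `fibrePoly W n c` which is the `x`-coordinate of `P` gives `x(n • P) = c`. -/
theorem fibrePoly_root {n : ℕ} (hn : 1 ≤ n) {c : K} {P : W.Point} (hP : P ≠ 0)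
    (hroot : (fibrePoly W n c).eval (ptX P) = 0) : n • P ≠ 0 ∧ ptX (n • P) = c := by
  rcases P with _ | ⟨x, y, h⟩
  · exact absurd rfl hP
  rw [ptX_some, eval_fibrePoly h] at hroot
  have hnP : n • Affine.Point.some x y h ≠ 0 := by
    intro h0
    have hd := (nsmul_eq_zero_iff_dseq h2 hP hn).mp h0
    rw [hd] at hroot
    have hz : dseq (Affine.Point.some x y h) ((n : ℤ) - 1) *
        dseq (Affine.Point.some x y h) ((n : ℤ) + 1) = 0 := by
      linear_combination -hroot
    rcases mul_eq_zero.mp hz with h1 | h1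
    · -- `(n - 1) • P = 0`
      rcases Nat.lt_or_ge n 2 with hn2 | hn2
      · have hn1 : n = 1 := by omega
        subst hn1
        rw [show ((1 : ℕ) : ℤ) = 1 from rfl, dseq_one] at hd
        exact one_ne_zero hd
      · have e : ((n : ℤ) - 1) = ((n - 1 : ℕ) : ℤ) := by
          push_cast [Nat.cast_sub hn]; ring
        rw [e] at h1
        have h3 := (nsmul_eq_zero_iff_dseq h2 hP (n := n - 1) (by omega)).mpr h1
        apply hP
        have h4 : n • Affine.Point.some x y h =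
            (n - 1) • Affine.Point.some x y h + Affine.Point.some x y h := by
          rw [← succ_nsmul]
          congr 1
          omega
        rw [h0, h3, zero_add] at h4
        exact h4.symm
    · have e : ((n : ℤ) + 1) = ((n + 1 : ℕ) : ℤ) := by push_cast; ring
      rw [e] at h1
      have h3 := (nsmul_eq_zero_iff_dseq h2 hP (n := n + 1) (by omega)).mpr h1
      apply hP
      rw [succ_nsmul, h0, zero_add] at h3
      exact h3
  refine ⟨hnP, ?_⟩
  obtain ⟨hw, hx⟩ := stepAAt_of_nsmul_ne_zero h2 hP hn hnP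
  rw [ptX_some] at hx
  have hw2 : dseq (Affine.Point.some x y h) (n : ℤ) ^ 2 ≠ 0 := pow_ne_zero 2 hw
  apply mul_right_cancel₀ hw2
  linear_combination hroot - hx

/-- Conversely `x(P)` is a root of `fibrePoly W n (x(n • P))`. -/
theorem fibrePoly_eval_eq_zero {n : ℕ} (hn : 1 ≤ n) {P : W.Point} (hP : P ≠ 0)
    (hnP : n • P ≠ 0) : (fibrePoly W n (ptX (n • P))).eval (ptX P) = 0 := by
  obtain ⟨hw, hx⟩ := stepAAt_of_nsmul_ne_zero h2 hP hn hnP
  rcases P with _ | ⟨x, y, h⟩
  · exact absurd rfl hP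
  rw [ptX_some, eval_fibrePoly h]
  rw [ptX_some] at hx
  linear_combination hx

/-- `Φ_n` and `ΨSq_n` have no common root which is the `x`-coordinate of a point. -/
theorem not_common_root {n : ℕ} (hn : 1 ≤ n) {P : W.Point} (hP : P ≠ 0)
    (h1 : (W.ΨSq (n : ℤ)).eval (ptX P) = 0) (h3 : (W.Φ (n : ℤ)).eval (ptX P) = 0) : False := by
  have hroot : (fibrePoly W n 0).eval (ptX P) = 0 := by
    rw [fibrePoly, eval_sub, eval_mul, h1, h3, mul_zero, sub_zero]
  obtain ⟨hnP, -⟩ := fibrePoly_root h2 hn hP hroot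
  apply hnP
  rw [nsmul_eq_zero_iff_dseq h2 hP hn]
  rcases P with _ | ⟨x, y, h⟩
  · exact absurd rfl hP
  rw [ptX_some, eval_ΨSq h] at h1
  exact pow_eq_zero_iff (two_ne_zero) |>.mp h1

/-- **`[n]` is surjective** on the points of an elliptic curve over an algebraically closed
field of characteristic `≠ 2`. -/
theorem exists_nsmul_eq [IsAlgClosed K] (hΔ : W.Δ ≠ 0) {n : ℕ} (hn : 1 ≤ n) (Q : W.Point) :
    ∃ P : W.Point, n • P = Q := by
  by_cases hQ : Q = 0
  · exact ⟨0, by rw [smul_zero, hQ]⟩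
  have hdeg : (fibrePoly W n (ptX Q)).degree ≠ 0 := by
    have h1 := natDegree_fibrePoly (W := W) hn (ptX Q)
    have h3 : 1 ≤ n ^ 2 := Nat.one_le_pow _ _ hn
    intro h0
    have := natDegree_eq_of_degree_eq_some (n := 0) (by rw [h0]; rfl)
    omega
  obtain ⟨x, hx⟩ := IsAlgClosed.exists_root _ hdeg
  obtain ⟨y, hy⟩ := exists_equation_of_isAlgClosed (W := W) x
  have hns : W.Nonsingular x y := (Affine.equation_iff_nonsingular_of_Δ_ne_zero hΔ).mp hy
  have hP : Affine.Point.some x y hns ≠ 0 := Affine.Point.some_ne_zero hns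
  obtain ⟨hnP, hxP⟩ := fibrePoly_root h2 hn hP (by rw [ptX_some]; exact hx)
  rcases eq_or_eq_neg_of_ptX_eq hnP hQ hxP.symm with h | h
  · exact ⟨Affine.Point.some x y hns, h.symm⟩
  · refine ⟨-Affine.Point.some x y hns, ?_⟩
    rw [smul_neg, h]

end curve

end Fermat.Agent.H74.DivGen

end
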