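/-
helper74: the number of `n`-torsion points of an elliptic curve.

Over an algebraically closed field `K` of characteristic `≠ 2` in which `n` is invertible, an
elliptic curve (`Δ ≠ 0`) has exactly `n²` points killed by `n`:
* `ncard_nsmul_eq_zero` : `{T | n • T = 0}.ncard = n ^ 2`;
* `card_torsionBy` : `Nat.card (Submodule.torsionBy ℤ W.Point n) = n ^ 2`.

Proof: for all but finitely many `c` the polynomial `Φ_n - c ΨSq_n` (monic of degree `n²`) is
separable, because the Wronskian `Φ_n' ΨSq_n - Φ_n ΨSq_n'` has leading coefficient `n²`; its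
`n²` roots are in bijection with the fibre of `[n]` over a point `Q` with `x(Q) = c`, and the
fibre is a coset of the `n`-torsion (`[n]` is surjective).
-/
import Fermat.Agent.H74.DivGen.Surj

set_option autoImplicit false

noncomputable section

open WeierstrassCurve Polynomial

namespace Fermat.Agent.H74.DivGen

open Fermat.Agent.H74

variable {K : Type*} [Field K] {W : Affine K}

/-- The Wronskian of `Φ_n` and `ΨSq_n`. -/
def wronPoly (W : Affine K) (n : ℕ) : K[X] :=
  derivative (W.Φ (n : ℤ)) * W.ΨSq (n : ℤ) - W.Φ (n : ℤ) * derivative (W.ΨSq (n : ℤ))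

/-- The coefficient of `X^(2n² - 2)` of the Wronskian is `n²`. -/
theorem coeff_wronPoly {n : ℕ} (hn : 2 ≤ n) :
    (wronPoly W n).coeff ((n ^ 2 - 1) + (n ^ 2 - 1)) = (n : K) ^ 2 := by
  have hD : 4 ≤ n ^ 2 := by nlinarith
  have hΦ : (W.Φ (n : ℤ)).natDegree ≤ n ^ 2 := by
    have := WeierstrassCurve.natDegree_Φ_le W (n : ℤ)
    rwa [Int.natAbs_natCast] at this
  have hΨ : (W.ΨSq (n : ℤ)).natDegree ≤ n ^ 2 - 1 := by
    have := WeierstrassCurve.natDegree_ΨSq_le W (n : ℤ)
    rwa [Int.natAbs_natCast] at this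
  have hΦ' : (derivative (W.Φ (n : ℤ))).natDegree ≤ n ^ 2 - 1 :=
    (natDegree_derivative_le _).trans (Nat.sub_le_sub_right hΦ 1)
  have hΨ' : (derivative (W.ΨSq (n : ℤ))).natDegree ≤ n ^ 2 - 2 :=
    (natDegree_derivative_le _).trans (by omega)
  have cΦ : (W.Φ (n : ℤ)).coeff (n ^ 2) = 1 := by
    have := WeierstrassCurve.coeff_Φ W (n : ℤ)
    rwa [Int.natAbs_natCast] at this
  have cΨ : (W.ΨSq (n : ℤ)).coeff (n ^ 2 - 1) = (n : K) ^ 2 := by
    have := WeierstrassCurve.coeff_ΨSq W (n : ℤ)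
    rw [Int.natAbs_natCast] at this
    rw [this]
    push_cast
    ring
  have e1 : (n ^ 2 - 1) + (n ^ 2 - 1) = n ^ 2 + (n ^ 2 - 2) := by omega
  rw [wronPoly, coeff_sub, coeff_mul_add_eq_of_natDegree_le hΦ' hΨ, e1,
    coeff_mul_add_eq_of_natDegree_le hΦ hΨ', coeff_derivative, coeff_derivative,
    show n ^ 2 - 1 + 1 = n ^ 2 by omega, show n ^ 2 - 2 + 1 = n ^ 2 - 1 by omega, cΦ, cΨ]
  have e2 : ((n ^ 2 - 1 : ℕ) : K) = ((n ^ 2 - 2 : ℕ) : K) + 1 := by
    rw [show n ^ 2 - 1 = (n ^ 2 - 2) + 1 by omega]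
    push_cast
    ring
  rw [e2]
  ring

theorem wronPoly_ne_zero {n : ℕ} (hn : 2 ≤ n) (hnK : (n : K) ≠ 0) : wronPoly W n ≠ 0 := by
  intro h
  have := coeff_wronPoly (W := W) hn
  rw [h, coeff_zero] at this
  exact pow_ne_zero 2 hnK this.symm

section count

variable [DecidableEq K] [IsAlgClosed K] (h2 : (2 : K) ≠ 0) (hΔ : W.Δ ≠ 0)

include h2 hΔ

/-- A multiple root of `Φ_n - c ΨSq_n` is a root of the Wronskian, and `c` is determined by
it. -/
theorem multiple_root {n : ℕ} (hn : 1 ≤ n) {c x : K} (h0 : (fibrePoly W n c).IsRoot x)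
    (h1 : (derivative (fibrePoly W n c)).IsRoot x) :
    (wronPoly W n).IsRoot x ∧ c = (W.Φ (n : ℤ)).eval x / (W.ΨSq (n : ℤ)).eval x := by
  rw [IsRoot.def, fibrePoly, eval_sub, eval_mul, eval_C] at h0
  rw [IsRoot.def, fibrePoly, derivative_sub, derivative_C_mul, eval_sub, eval_mul, eval_C] at h1
  have hΨ : (W.ΨSq (n : ℤ)).eval x ≠ 0 := by
    intro hz
    have hΦz : (W.Φ (n : ℤ)).eval x = 0 := by
      rw [hz, mul_zero, sub_zero] at h0
      exact h0
    obtain ⟨y, hy⟩ := exists_equation_of_isAlgClosed (W := W) x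
    have hns : W.Nonsingular x y := (Affine.equation_iff_nonsingular_of_Δ_ne_zero hΔ).mp hy
    exact not_common_root h2 hn (P := Affine.Point.some x y hns) (Affine.Point.some_ne_zero hns)
      (by rw [ptX_some]; exact hz) (by rw [ptX_some]; exact hΦz)
  refine ⟨?_, ?_⟩
  · rw [IsRoot.def, wronPoly, eval_sub, eval_mul, eval_mul]
    linear_combination (W.ΨSq (n : ℤ)).eval x * h1 - (derivative (W.ΨSq (n : ℤ))).eval x * h0
  · field_simp
    linear_combination -h0

/-- For all `c` outside a finite set, `Φ_n - c ΨSq_n` has `n²` distinct roots and `c` is not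
the `x`-coordinate of a point of order two. -/
theorem exists_good_c {n : ℕ} (hn : 2 ≤ n) (hnK : (n : K) ≠ 0) :
    ∃ c : K, (fibrePoly W n c).roots.Nodup ∧ W.Ψ₂Sq.eval c ≠ 0 := by
  classical
  obtain ⟨c, hc⟩ := Infinite.exists_notMem_finset
    (((wronPoly W n).roots.toFinset.image
      (fun x => (W.Φ (n : ℤ)).eval x / (W.ΨSq (n : ℤ)).eval x)) ∪ W.Ψ₂Sq.roots.toFinset)
  rw [Finset.mem_union, not_or] at hc
  obtain ⟨hc1, hc2⟩ := hc
  have h4 : (4 : K) ≠ 0 := by
    have : (4 : K) = 2 * 2 := by norm_num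
    rw [this]
    exact mul_ne_zero h2 h2
  refine ⟨c, ?_, ?_⟩
  · rw [Multiset.nodup_iff_count_le_one]
    intro x
    rw [count_roots]
    by_contra hlt
    push Not at hlt
    have hne : fibrePoly W n c ≠ 0 := fibrePoly_ne_zero (by omega) c
    obtain ⟨h0, h1⟩ := (one_lt_rootMultiplicity_iff_isRoot hne).mp hlt
    obtain ⟨hw, hceq⟩ := multiple_root h2 hΔ (by omega) h0 h1
    apply hc1
    rw [Finset.mem_image]
    refine ⟨x, ?_, hceq.symm⟩
    rw [Multiset.mem_toFinset, mem_roots (wronPoly_ne_zero hn hnK)]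
    exact hw
  · intro hz
    apply hc2
    rw [Multiset.mem_toFinset, mem_roots (WeierstrassCurve.Ψ₂Sq_ne_zero W h4)]
    exact hz

/-- The fibre of `[n]` over a suitable point has `n²` elements. -/
theorem exists_fibre_ncard {n : ℕ} (hn : 2 ≤ n) (hnK : (n : K) ≠ 0) :
    ∃ Q : W.Point, {P : W.Point | n • P = Q}.ncard = n ^ 2 := by
  classical
  obtain ⟨c, hnodup, hc2⟩ := exists_good_c h2 hΔ hn hnK
  obtain ⟨y, hy⟩ := exists_equation_of_isAlgClosed (W := W) c
  have hns : W.Nonsingular c y := (Affine.equation_iff_nonsingular_of_Δ_ne_zero hΔ).mp hy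
  set Q : W.Point := Affine.Point.some c y hns with hQdef
  have hQ : Q ≠ 0 := Affine.Point.some_ne_zero hns
  have hQ2 : Q + Q ≠ 0 := by
    intro h
    have h' := (add_self_eq_zero_iff hQ).mp h
    have h3 := ptPsi2_sq hns
    rw [← hQdef, h'] at h3
    apply hc2
    rw [← h3]
    ring
  have hn1 : 1 ≤ n := by omega
  have hne : fibrePoly W n c ≠ 0 := fibrePoly_ne_zero hn1 c
  refine ⟨Q, ?_⟩
  have himage : ptX '' {P : W.Point | n • P = Q} = ((fibrePoly W n c).roots.toFinset : Set K) := by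
    ext x
    simp only [Set.mem_image, Set.mem_ofPred_eq, Finset.mem_coe, Multiset.mem_toFinset]
    rw [mem_roots hne]
    constructor
    · rintro ⟨P, hP, rfl⟩
      have hP0 : P ≠ 0 := by
        rintro rfl
        rw [smul_zero] at hP
        exact hQ hP.symm
      have hnP : n • P ≠ 0 := by rw [hP]; exact hQ
      have := fibrePoly_eval_eq_zero h2 hn1 hP0 hnP
      rw [hP] at this
      exact this
    · intro hx
      obtain ⟨y', hy'⟩ := exists_equation_of_isAlgClosed (W := W) x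
      have hns' : W.Nonsingular x y' := (Affine.equation_iff_nonsingular_of_Δ_ne_zero hΔ).mp hy'
      have hP0 : Affine.Point.some x y' hns' ≠ 0 := Affine.Point.some_ne_zero hns'
      obtain ⟨hnP, hxP⟩ := fibrePoly_root h2 hn1 hP0 (by rw [ptX_some]; exact hx)
      have hxQ : ptX Q = ptX (n • Affine.Point.some x y' hns') := by
        rw [hxP]; rfl
      rcases eq_or_eq_neg_of_ptX_eq hnP hQ hxQ with h | h
      · exact ⟨Affine.Point.some x y' hns', h.symm, rfl⟩
      · refine ⟨-Affine.Point.some x y' hns', ?_, ?_⟩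
        · rw [smul_neg, h]
        · rw [ptX_neg]; rfl
  have hinj : Set.InjOn ptX {P : W.Point | n • P = Q} := by
    intro P hP P' hP' hxx
    simp only [Set.mem_ofPred_eq] at hP hP'
    have hP0 : P ≠ 0 := by
      rintro rfl
      rw [smul_zero] at hP
      exact hQ hP.symm
    have hP0' : P' ≠ 0 := by
      rintro rfl
      rw [smul_zero] at hP'
      exact hQ hP'.symm
    rcases eq_or_eq_neg_of_ptX_eq hP0 hP0' hxx.symm with h | h
    · exact h.symm
    · exfalso
      apply hQ2
      have : n • P' = -Q := by rw [h, smul_neg, hP]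
      rw [hP'] at this
      nth_rewrite 1 [this]
      exact neg_add_cancel Q
  rw [← hinj.ncard_image, himage, Set.ncard_coe_finset, Multiset.toFinset_card_of_nodup hnodup,
    IsAlgClosed.card_roots_eq_natDegree, natDegree_fibrePoly hn1]

/-- **The `n`-torsion of an elliptic curve has `n²` elements** (algebraically closed field of
characteristic `≠ 2`, `n` invertible). -/
theorem ncard_nsmul_eq_zero {n : ℕ} (hn : 1 ≤ n) (hnK : (n : K) ≠ 0) :
    {T : W.Point | n • T = 0}.ncard = n ^ 2 := by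
  rcases Nat.lt_or_ge n 2 with h1 | h1
  · have : n = 1 := by omega
    subst this
    have : {T : W.Point | 1 • T = 0} = {0} := by
      ext T
      simp
    rw [this, Set.ncard_singleton]
    norm_num
  · obtain ⟨Q, hQ⟩ := exists_fibre_ncard h2 hΔ h1 hnK
    obtain ⟨P₁, hP₁⟩ := exists_nsmul_eq h2 hΔ hn Q
    have himg : (fun T : W.Point => T + P₁) '' {T : W.Point | n • T = 0} =
        {P : W.Point | n • P = Q} := by
      ext P
      simp only [Set.mem_image, Set.mem_ofPred_eq]
      constructor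
      · rintro ⟨T, hT, rfl⟩
        rw [smul_add, hT, zero_add, hP₁]
      · intro hP
        refine ⟨P - P₁, ?_, sub_add_cancel P P₁⟩
        rw [smul_sub, hP, hP₁, sub_self]
    rw [← hQ, ← himg]
    exact (Set.ncard_image_of_injective _ (add_left_injective P₁)).symm

/-- The `n`-torsion is finite. -/
theorem finite_nsmul_eq_zero {n : ℕ} (hn : 1 ≤ n) (hnK : (n : K) ≠ 0) :
    {T : W.Point | n • T = 0}.Finite := by
  apply Set.finite_of_ncard_pos
  rw [ncard_nsmul_eq_zero h2 hΔ hn hnK]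
  exact Nat.pos_of_ne_zero (pow_ne_zero 2 (by omega))

/-- **`#E[n] = n²`**, `torsionBy` form. -/
theorem card_torsionBy {n : ℕ} (hn : 1 ≤ n) (hnK : (n : K) ≠ 0) :
    Nat.card (Submodule.torsionBy ℤ W.Point (n : ℤ)) = n ^ 2 := by
  have hset : ((Submodule.torsionBy ℤ W.Point (n : ℤ) : Submodule ℤ W.Point) : Set W.Point) =
      {T : W.Point | n • T = 0} := by
    ext T
    simp only [SetLike.mem_coe, Submodule.mem_torsionBy_iff, Set.mem_ofPred_eq, natCast_zsmul]
  rw [← ncard_nsmul_eq_zero h2 hΔ hn hnK, ← hset]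
  exact Nat.card_coe_set_eq _

/-- The `torsionBy` is finite. -/
theorem finite_torsionBy {n : ℕ} (hn : 1 ≤ n) (hnK : (n : K) ≠ 0) :
    Finite (Submodule.torsionBy ℤ W.Point (n : ℤ)) := by
  apply Nat.finite_of_card_ne_zero
  rw [card_torsionBy h2 hΔ hn hnK]
  exact pow_ne_zero 2 (by omega)

end count

end Fermat.Agent.H74.DivGen

end
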