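/-
helper74: division polynomials, general index.

For a nonzero point `P` of a Weierstrass curve over a field of characteristic `≠ 2` and
`n ≥ 1`:
* `nsmul_eq_zero_iff_dseq` : `n • P = 0 ↔ ψ_n(P) = 0`;
* `stepAAt_of_nsmul_ne_zero` : if `n • P ≠ 0` then `ψ_n(P) ≠ 0` and
  `(x(P) - x(n • P)) ψ_n(P)² = ψ_{n-1}(P) ψ_{n+1}(P)` (general multiplication formula).

The landed `Fermat.Agent.H74.stepA` needs `j • P ≠ 0` for all `1 ≤ j ≤ n`; the general case
uses the periodicity `ψ_{m+N+1} ψ_{m+N-1} ψ_m² = ψ_{m+1} ψ_{m-1} ψ_{m+N}²` (`N` the order of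
`P`), which is Ward's identity at `(m + N, m)`.
-/
import Fermat.Agent.H74.DivPolyMain

set_option autoImplicit false

noncomputable section

open WeierstrassCurve Polynomial

namespace Fermat.Agent.H74.DivGen

open Fermat.Agent.H74

variable {K : Type*} [Field K] [DecidableEq K] {W : Affine K}

/-- A torsion point `P ≠ 0` has an exact order `N ≥ 2`. -/
theorem exists_exact_order {P : W.Point} (hP : P ≠ 0) {n : ℕ} (hn : 1 ≤ n) (hnP : n • P = 0) :
    ∃ N : ℕ, 2 ≤ N ∧ N • P = 0 ∧ (∀ j : ℕ, 1 ≤ j → j < N → j • P ≠ 0) ∧ N ∣ n := by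
  classical
  have hex : ∃ m : ℕ, 1 ≤ m ∧ m • P = 0 := ⟨n, hn, hnP⟩
  refine ⟨Nat.find hex, ?_, (Nat.find_spec hex).2, ?_, ?_⟩
  · have h1 := (Nat.find_spec hex).1
    rcases Nat.lt_or_ge (Nat.find hex) 2 with h | h
    · have h0 : Nat.find hex = 1 := by omega
      have := (Nat.find_spec hex).2
      rw [h0, one_nsmul] at this
      exact absurd this hP
    · exact h
  · intro j h1 h2 hjP
    exact Nat.find_min hex h2 ⟨h1, hjP⟩
  · -- division with remainder
    set N := Nat.find hex with hN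
    have hN1 : 1 ≤ N := (Nat.find_spec hex).1
    have hNP : N • P = 0 := (Nat.find_spec hex).2
    by_contra hdvd
    have hr : n % N < N := Nat.mod_lt _ (by omega)
    have hr0 : 1 ≤ n % N := by
      rcases Nat.eq_zero_or_pos (n % N) with h | h
      · exact absurd (Nat.dvd_of_mod_eq_zero h) hdvd
      · exact h
    have hrP : (n % N) • P = 0 := by
      have h := Nat.mod_add_div n N
      have h2 : (n % N + N * (n / N)) • P = 0 := by rw [h]; exact hnP
      rw [add_nsmul, mul_nsmul, hNP, smul_zero, add_zero] at h2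
      exact h2
    exact Nat.find_min hex hr ⟨hr0, hrP⟩

section order

variable (h2 : (2 : K) ≠ 0) {P : W.Point} (hP : P ≠ 0) {N : ℕ} (hN : 2 ≤ N)
  (hj : ∀ j : ℕ, 1 ≤ j → j < N → j • P ≠ 0) (hNP : N • P = 0)

include h2 hP hN hj hNP

omit h2 in
/-- `ψ_N(P) = 0` for the exact order `N`. -/
theorem dseq_order : dseq P (N : ℤ) = 0 :=
  dseq_eq_zero_of_order (wardIdentity K) (curveDup W) (curveTrip W) (curvePR W) hP hN hj hNP

/-- `ψ_n(P) ≠ 0` if the exact order `N` does not divide `n ≥ 1`. -/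
theorem dseq_ne_zero_of_not_dvd {n : ℕ} (hn : 1 ≤ n) (hdvd : ¬ N ∣ n) : dseq P (n : ℤ) ≠ 0 :=
  stepB (wardIdentity K) (curveDup W) (curveTrip W) (curvePR W) (curveComp2 W)
    (curveTwoTors W h2) hP hN hj hNP n hn hdvd

/-- `ψ_{kN}(P) = 0` for the exact order `N`. -/
theorem dseq_mul_order (k : ℕ) : dseq P ((k * N : ℕ) : ℤ) = 0 := by
  induction k using Nat.strong_induction_on with
  | _ k ih =>
    rcases Nat.lt_or_ge k 2 with hk | hk
    · interval_cases k
      · simp [dseq_zero]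
      · rw [one_mul]
        exact dseq_order hP hN hj hNP
    · rcases Nat.lt_or_ge N 3 with hN3 | hN3
      · -- `N = 2`: even indices
        have hN2 : N = 2 := by omega
        subst hN2
        rcases P with _ | ⟨x, y, h⟩
        · exact absurd rfl hP
        have hpsi : ptPsi2 (Affine.Point.some x y h) = 0 := by
          have := dseq_order hP hN hj hNP
          rwa [show ((2 : ℕ) : ℤ) = 2 from rfl, dseq_two] at this
        rw [dseq_eq_eval_preΨ h, if_pos (by rw [Int.even_coe_nat]; exact ⟨k, by ring⟩), hpsi,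
          mul_zero]
      · -- Ward at `((k - 1) N + 1, N - 1)`
        obtain ⟨k', rfl⟩ : ∃ k', k = k' + 1 := ⟨k - 1, by omega⟩
        have hk' : 1 ≤ k' := by omega
        have hward := wardIdentity K (ptPsi2 P) (W.Ψ₃.eval (ptX P)) (W.preΨ₄.eval (ptX P))
          ((k' * N : ℕ) + 1) ((N : ℤ) - 1)
        change dseq P (((k' * N : ℕ) : ℤ) + 1 + ((N : ℤ) - 1)) *
            dseq P (((k' * N : ℕ) : ℤ) + 1 - ((N : ℤ) - 1)) =
          dseq P (((k' * N : ℕ) : ℤ) + 1 + 1) * dseq P (((k' * N : ℕ) : ℤ) + 1 - 1) *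
              dseq P ((N : ℤ) - 1) ^ 2 -
            dseq P ((N : ℤ) - 1 + 1) * dseq P ((N : ℤ) - 1 - 1) *
              dseq P (((k' * N : ℕ) : ℤ) + 1) ^ 2 at hward
        have e1 : ((k' * N : ℕ) : ℤ) + 1 + ((N : ℤ) - 1) = (((k' + 1) * N : ℕ) : ℤ) := by
          push_cast; ring
        have e2 : ((k' * N : ℕ) : ℤ) + 1 - ((N : ℤ) - 1) = (((k' - 1) * N + 2 : ℕ) : ℤ) := by
          push_cast [Nat.cast_sub hk']; ring
        have e3 : ((k' * N : ℕ) : ℤ) + 1 - 1 = ((k' * N : ℕ) : ℤ) := by ring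
        have e4 : (N : ℤ) - 1 + 1 = (N : ℤ) := by ring
        rw [e1, e2, e3, e4, ih k' (by omega), dseq_order hP hN hj hNP] at hward
        have hne : dseq P (((k' - 1) * N + 2 : ℕ) : ℤ) ≠ 0 := by
          refine dseq_ne_zero_of_not_dvd h2 hP hN hj hNP (by omega) ?_
          intro hd
          have h2' : N ∣ 2 := (Nat.dvd_add_right (Dvd.intro_left _ rfl)).mp hd
          have := Nat.le_of_dvd (by norm_num) h2'
          omega
        have hz : dseq P (((k' + 1) * N : ℕ) : ℤ) * dseq P (((k' - 1) * N + 2 : ℕ) : ℤ) = 0 := by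
          rw [hward]; ring
        exact (mul_eq_zero.mp hz).resolve_right hne

omit h2 in
/-- The periodicity relation behind the general multiplication formula. -/
theorem dseq_period (m : ℕ) :
    dseq P ((m : ℤ) + N + 1) * dseq P ((m : ℤ) + N - 1) * dseq P (m : ℤ) ^ 2 =
      dseq P ((m : ℤ) + 1) * dseq P ((m : ℤ) - 1) * dseq P ((m : ℤ) + N) ^ 2 := by
  have hward := wardIdentity K (ptPsi2 P) (W.Ψ₃.eval (ptX P)) (W.preΨ₄.eval (ptX P))
    ((m : ℤ) + N) (m : ℤ)
  change dseq P ((m : ℤ) + N + m) * dseq P ((m : ℤ) + N - m) =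
    dseq P ((m : ℤ) + N + 1) * dseq P ((m : ℤ) + N - 1) * dseq P (m : ℤ) ^ 2 -
      dseq P ((m : ℤ) + 1) * dseq P ((m : ℤ) - 1) * dseq P ((m : ℤ) + N) ^ 2 at hward
  have e : (m : ℤ) + N - m = (N : ℤ) := by ring
  rw [e, dseq_order hP hN hj hNP, mul_zero] at hward
  linear_combination -hward

/-- Step: the multiplication formula passes from `m` to `m + N`. -/
theorem stepAAt_add_order {m : ℕ} (hm : 1 ≤ m) (hdvd : ¬ N ∣ m) (hA : StepAAt P m) :
    StepAAt P (m + N) := by
  obtain ⟨hwm, hxm⟩ := hA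
  have hdvd' : ¬ N ∣ m + N := fun h => hdvd ((Nat.dvd_add_left dvd_rfl).mp h)
  have hw : dseq P ((m + N : ℕ) : ℤ) ≠ 0 :=
    dseq_ne_zero_of_not_dvd h2 hP hN hj hNP (by omega) hdvd'
  refine ⟨hw, ?_⟩
  have hper := dseq_period hP hN hj hNP m
  have hsm : (m + N) • P = m • P := by rw [add_nsmul, hNP, add_zero]
  have e1 : ((m + N : ℕ) : ℤ) = (m : ℤ) + N := by push_cast; ring
  rw [hsm, e1]
  rw [e1] at hw
  apply mul_right_cancel₀ (pow_ne_zero 2 hwm)
  linear_combination dseq P ((m : ℤ) + N) ^ 2 * hxm - hper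

end order

section main

variable (h2 : (2 : K) ≠ 0) {P : W.Point} (hP : P ≠ 0)

include h2 hP

/-- **Torsion criterion, general index**: `n • P = 0 ↔ ψ_n(P) = 0`. -/
theorem nsmul_eq_zero_iff_dseq {n : ℕ} (hn : 1 ≤ n) : n • P = 0 ↔ dseq P (n : ℤ) = 0 := by
  constructor
  · intro h
    obtain ⟨N, hN, hNP, hj, k, rfl⟩ := exists_exact_order hP hn h
    rw [mul_comm]
    exact dseq_mul_order h2 hP hN hj hNP k
  · intro h
    by_contra hne
    by_cases hex : ∃ m : ℕ, 1 ≤ m ∧ m • P = 0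
    · obtain ⟨m, hm, hmP⟩ := hex
      obtain ⟨N, hN, hNP, hj, -⟩ := exists_exact_order hP hm hmP
      refine dseq_ne_zero_of_not_dvd h2 hP hN hj hNP hn ?_ h
      rintro ⟨k, rfl⟩
      apply hne
      rw [mul_nsmul, hNP, smul_zero]
    · push Not at hex
      exact (stepA (wardIdentity K) (curveDup W) (curveTrip W) (curvePR W) hP n hn
        (fun j h1 _ => hex j h1)).1 h

/-- **General multiplication formula**: if `n • P ≠ 0` then `ψ_n(P) ≠ 0` and
`(x(P) - x(n • P)) ψ_n(P)² = ψ_{n-1}(P) ψ_{n+1}(P)`. -/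
theorem stepAAt_of_nsmul_ne_zero {n : ℕ} (hn : 1 ≤ n) (hnP : n • P ≠ 0) : StepAAt P n := by
  by_cases hex : ∃ m : ℕ, 1 ≤ m ∧ m • P = 0
  · obtain ⟨m, hm, hmP⟩ := hex
    obtain ⟨N, hN, hNP, hj, -⟩ := exists_exact_order hP hm hmP
    -- induction on `k` for `n = r + k N`
    have key : ∀ k r : ℕ, 1 ≤ r → r < N → StepAAt P (r + k * N) := by
      intro k
      induction k with
      | zero =>
        intro r hr1 hr2
        rw [zero_mul, add_zero]
        exact stepA (wardIdentity K) (curveDup W) (curveTrip W) (curvePR W) hP r hr1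
          (fun j h1 h2' => hj j h1 (by omega))
      | succ k ih =>
        intro r hr1 hr2
        have hdvd : ¬ N ∣ r + k * N := by
          intro h
          have h' : N ∣ r := (Nat.dvd_add_left (Dvd.intro_left _ rfl)).mp h
          have := Nat.le_of_dvd (by omega) h'
          omega
        have := stepAAt_add_order h2 hP hN hj hNP (m := r + k * N) (by omega) hdvd (ih r hr1 hr2)
        rwa [show r + (k + 1) * N = r + k * N + N by ring]
    have hdvd : ¬ N ∣ n := by
      rintro ⟨k, rfl⟩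
      apply hnP
      rw [mul_nsmul, hNP, smul_zero]
    have hr : n % N < N := Nat.mod_lt _ (by omega)
    have hr0 : 1 ≤ n % N := by
      rcases Nat.eq_zero_or_pos (n % N) with h | h
      · exact absurd (Nat.dvd_of_mod_eq_zero h) hdvd
      · exact h
    have := key (n / N) (n % N) hr0 hr
    rwa [mul_comm, Nat.mod_add_div] at this
  · push Not at hex
    exact stepA (wardIdentity K) (curveDup W) (curveTrip W) (curvePR W) hP n hn
      (fun j h1 _ => hex j h1)

/-- The multiplication formula as an equation for `x(n • P)`. -/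
theorem ptX_nsmul {n : ℕ} (hn : 1 ≤ n) (hnP : n • P ≠ 0) :
    ptX (n • P) = ptX P - dseq P ((n : ℤ) - 1) * dseq P ((n : ℤ) + 1) / dseq P (n : ℤ) ^ 2 := by
  obtain ⟨hw, hx⟩ := stepAAt_of_nsmul_ne_zero h2 hP hn hnP
  have hw2 : dseq P (n : ℤ) ^ 2 ≠ 0 := pow_ne_zero 2 hw
  field_simp
  linear_combination -hx

end main

end Fermat.Agent.H74.DivGen

end
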